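/-
S16, upper bound, case `l = p` (helper96), part 1: the ring `O` of `p`-integral algebraic
numbers and the level-one core:

  there is no level-one modular form of weight `2p` (`p ≥ 5` prime) whose `q`-expansion has
  coefficients in `O` and is `≡ 1 mod p O`.

Proof (Frobenius trick): if `F` is such a form then `Φ = F^2 - E₄^p` (weight `4p`) is
`≡ 1 - E₄(q^p) = -240 q^p + … mod p O`; its coefficients of index `< p` lie in `p O` and the
`p`-th does not, although `4p / 12 < p`: this contradicts the level-one Sturm bound modulo `p`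
(`SturmMod32`).  For `p = 5` one uses `F^3 - E₆^p`.
-/
import Mathlib
import Fermat.Agent.S16.SturmMod32

set_option autoImplicit false

open UpperHalfPlane ModularForm ModularFormClass MatrixGroups EisensteinSeries

namespace Fermat.Agent.S16.UpNorm96

/-! ### The ring of `p`-integral algebraic numbers -/

section RingO

variable (p : ℕ) [hp : Fact p.Prime]

theorem isIntegral_intCast' (m : ℤ) : IsIntegral ℤ ((m : ℤ) : ℂ) := by
  rw [← eq_intCast (algebraMap ℤ ℂ) m]
  exact isIntegral_algebraMap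

theorem isIntegral_natCast' (n : ℕ) : IsIntegral ℤ ((n : ℕ) : ℂ) := by
  have := isIntegral_intCast' (n : ℤ)
  simpa using this

/-- The `p`-integral algebraic numbers: `x ∈ ℂ` such that `d x` is an algebraic integer for some
natural number `d` prime to `p`. -/
def ringO : Subring ℂ where
  carrier := {x | ∃ d : ℕ, ¬ p ∣ d ∧ IsIntegral ℤ ((d : ℂ) * x)}
  mul_mem' := by
    rintro x y ⟨d, hd, hx⟩ ⟨e, he, hy⟩
    refine ⟨d * e, fun h => ?_, ?_⟩
    · rcases (Nat.Prime.dvd_mul hp.out).mp h with h | h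
      · exact hd h
      · exact he h
    · have h := hx.mul hy
      have e1 : ((d * e : ℕ) : ℂ) * (x * y) = (d : ℂ) * x * ((e : ℂ) * y) := by
        push_cast; ring
      rw [e1]; exact h
  one_mem' := ⟨1, by simpa using hp.out.one_lt.ne', by simpa using isIntegral_one⟩
  add_mem' := by
    rintro x y ⟨d, hd, hx⟩ ⟨e, he, hy⟩
    refine ⟨d * e, fun h => ?_, ?_⟩
    · rcases (Nat.Prime.dvd_mul hp.out).mp h with h | h
      · exact hd h
      · exact he h
    · have h1 : IsIntegral ℤ ((e : ℂ) * ((d : ℂ) * x)) := (isIntegral_natCast' e).mul hx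
      have h2 : IsIntegral ℤ ((d : ℂ) * ((e : ℂ) * y)) := (isIntegral_natCast' d).mul hy
      have e1 : ((d * e : ℕ) : ℂ) * (x + y) = (e : ℂ) * ((d : ℂ) * x) + (d : ℂ) * ((e : ℂ) * y) := by
        push_cast; ring
      rw [e1]; exact h1.add h2
  zero_mem' := ⟨1, by simpa using hp.out.one_lt.ne', by simpa using isIntegral_zero⟩
  neg_mem' := by
    rintro x ⟨d, hd, hx⟩
    refine ⟨d, hd, ?_⟩
    rw [mul_neg]; exact hx.neg

theorem mem_ringO_iff {x : ℂ} :
    x ∈ ringO p ↔ ∃ d : ℕ, ¬ p ∣ d ∧ IsIntegral ℤ ((d : ℂ) * x) := Iff.rfl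

/-- Algebraic integers are `p`-integral. -/
theorem mem_ringO_of_isIntegral {x : ℂ} (hx : IsIntegral ℤ x) : x ∈ ringO p :=
  ⟨1, by simpa using hp.out.one_lt.ne', by simpa using hx⟩

theorem intCast_mem_ringO (m : ℤ) : (m : ℂ) ∈ ringO p := intCast_mem (ringO p) m

/-- `m / d` with `p ∤ d` is `p`-integral. -/
theorem mem_ringO_of_mul_eq {x : ℂ} {d : ℕ} (hd : ¬ p ∣ d) {m : ℤ} (h : x * (d : ℂ) = (m : ℂ)) :
    x ∈ ringO p := by
  refine ⟨d, hd, ?_⟩
  rw [mul_comm, h]
  exact isIntegral_intCast' m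

/-- A rational integer which is divisible by `p` in `O` is divisible by `p` in `ℤ`. -/
theorem int_dvd_of_eq_mul {n : ℤ} {y : ℂ} (hy : y ∈ ringO p) (h : (n : ℂ) = (p : ℂ) * y) :
    (p : ℤ) ∣ n := by
  obtain ⟨d, hd, hint⟩ := hy
  have hp0 : (p : ℂ) ≠ 0 := by exact_mod_cast hp.out.ne_zero
  -- `d * y = (d * n) / p` is a rational algebraic integer
  have hq : (d : ℂ) * y = algebraMap ℚ ℂ (((d : ℤ) * n : ℤ) / (p : ℚ)) := by
    have : y = (n : ℂ) / (p : ℂ) := by rw [h]; field_simp
    rw [this]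
    simp only [eq_ratCast]
    push_cast
    ring
  rw [hq] at hint
  have hint' : IsIntegral ℤ ((((d : ℤ) * n : ℤ) : ℚ) / (p : ℚ)) :=
    (isIntegral_algebraMap_iff (algebraMap ℚ ℂ).injective).mp hint
  obtain ⟨k, hk⟩ := IsIntegrallyClosed.isIntegral_iff.mp hint'
  have hpq : (p : ℚ) ≠ 0 := by exact_mod_cast hp.out.ne_zero
  have hk' : ((k * (p : ℤ) : ℤ) : ℚ) = (((d : ℤ) * n : ℤ) : ℚ) := by
    have : (k : ℚ) = (((d : ℤ) * n : ℤ) : ℚ) / (p : ℚ) := by simpa using hk
    push_cast
    rw [this]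
    field_simp
    push_cast
    ring
  have hk'' : k * (p : ℤ) = (d : ℤ) * n := by exact_mod_cast hk'
  have hdvd : (p : ℤ) ∣ (d : ℤ) * n := ⟨k, by rw [← hk'']; ring⟩
  have hpr : Prime (p : ℤ) := Nat.prime_iff_prime_int.mp hp.out
  rcases hpr.dvd_or_dvd hdvd with h1 | h1
  · exact absurd (by exact_mod_cast h1) hd
  · exact h1

end RingO

/-! ### The level-one core -/

section Core

variable (p : ℕ) [hp : Fact p.Prime]

/-- The reduction map `O → O / p O`. -/
noncomputable abbrev redO : ringO p →+* (ringO p ⧸ Ideal.span {(p : ringO p)}) :=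
  Ideal.Quotient.mk _

theorem redO_eq_zero_iff (x : ringO p) :
    redO p x = 0 ↔ ∃ y ∈ ringO p, (x : ℂ) = (p : ℂ) * y := by
  rw [Ideal.Quotient.eq_zero_iff_mem, Ideal.mem_span_singleton']
  constructor
  · rintro ⟨a, rfl⟩
    exact ⟨a, a.2, by push_cast; ring⟩
  · rintro ⟨y, hy, h⟩
    refine ⟨⟨y, hy⟩, ?_⟩
    apply Subtype.ext
    push_cast
    rw [h]; ring

theorem redO_natCast_self : redO p (p : ringO p) = 0 := by
  rw [Ideal.Quotient.eq_zero_iff_mem]
  exact Ideal.mem_span_singleton_self _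

theorem map_map_int {R S : Type*} [CommRing R] [CommRing S] (ψ : R →+* S) (P : PowerSeries ℤ) :
    PowerSeries.map ψ (PowerSeries.map (Int.castRingHom R) P)
      = PowerSeries.map (Int.castRingHom S) P := by
  ext n
  simp [PowerSeries.coeff_map]

theorem map_subtype_map_int (O : Subring ℂ) (P : PowerSeries ℤ) :
    PowerSeries.map O.subtype (PowerSeries.map (Int.castRingHom O) P)
      = PowerSeries.map (Int.castRingHom ℂ) P :=
  map_map_int O.subtype P

/-- Abstract core.  `F` of weight `w`, `E` of weight `k₀` with `q`-expansion `1 + X h`,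
`h ∈ ℤ⟦X⟧` with constant term prime to `p`, `r w = p k₀`, `p k₀ / 12 < p`:
then `F` cannot be `≡ 1 mod p O`. -/
theorem core_aux {w k₀ : ℤ} (r : ℕ) (F : ModularForm 𝒮ℒ w) (E : ModularForm 𝒮ℒ k₀)
    (hwt : (r : ℤ) * w = (p : ℤ) * k₀) (hSturm : ((p : ℤ) * k₀).toNat / 12 < p)
    (h : PowerSeries ℤ)
    (hE : qExpansion 1 E = PowerSeries.map (Int.castRingHom ℂ) (1 + PowerSeries.X * h))
    (hc : ¬ (p : ℤ) ∣ PowerSeries.constantCoeff h)
    (hF0 : ∃ y ∈ ringO p, (qExpansion 1 F).coeff 0 - 1 = (p : ℂ) * y)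
    (hFn : ∀ n : ℕ, 1 ≤ n → ∃ y ∈ ringO p, (qExpansion 1 F).coeff n = (p : ℂ) * y) : False := by
  classical
  set O := ringO p with hO
  set φ := redO p with hφ
  -- the q-expansion of `F` over `O`
  have hmem : ∀ n, (qExpansion 1 F).coeff n ∈ O := by
    intro n
    rcases Nat.eq_zero_or_pos n with rfl | hn
    · obtain ⟨y, hy, h0⟩ := hF0
      have : (qExpansion 1 F).coeff 0 = 1 + (p : ℂ) * y := by rw [← h0]; ring
      rw [this]
      exact O.add_mem O.one_mem (O.mul_mem (natCast_mem O p) hy)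
    · obtain ⟨y, hy, h0⟩ := hFn n hn
      rw [h0]
      exact O.mul_mem (natCast_mem O p) hy
  set A : PowerSeries O := PowerSeries.mk fun n => ⟨(qExpansion 1 F).coeff n, hmem n⟩ with hA
  have hAmap : PowerSeries.map O.subtype A = qExpansion 1 F := by
    ext n
    simp [hA]
  have hAred : PowerSeries.map φ A = 1 := by
    ext n
    rw [PowerSeries.coeff_map, PowerSeries.coeff_one]
    split_ifs with hn
    · subst hn
      have : φ (PowerSeries.coeff 0 A - 1) = 0 := by
        rw [redO_eq_zero_iff]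
        obtain ⟨y, hy, h0⟩ := hF0
        refine ⟨y, hy, ?_⟩
        rw [← h0]
        simp [hA]
      rw [map_sub, map_one, sub_eq_zero] at this
      exact this
    · rw [redO_eq_zero_iff]
      obtain ⟨y, hy, h0⟩ := hFn n (Nat.pos_of_ne_zero hn)
      exact ⟨y, hy, by rw [← h0]; simp [hA]⟩
  -- the q-expansion of `E` over `O`
  set EO : PowerSeries O := PowerSeries.map (Int.castRingHom O) (1 + PowerSeries.X * h) with hEO
  have hEmap : PowerSeries.map O.subtype EO = qExpansion 1 E := by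
    rw [hE, hEO, map_subtype_map_int]
  -- the form `Φ = F^r - E^p`
  set F1 : ModularForm 𝒮ℒ ((p : ℤ) * k₀) := ModularForm.mcast hwt (F.pow r) with hF1
  set E1 : ModularForm 𝒮ℒ ((p : ℤ) * k₀) := E.pow p with hE1
  set Φ : ModularForm 𝒮ℒ ((p : ℤ) * k₀) := F1 - E1 with hΦ
  have hΦq : qExpansion 1 Φ = PowerSeries.map O.subtype (A ^ r - EO ^ p) := by
    rw [hΦ, show (⇑(F1 - E1) : ℍ → ℂ) = ⇑F1 - ⇑E1 from rfl,
      ModularForm.qExpansion_sub one_pos one_mem_strictPeriods_SL, hF1, hE1,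
      ModularForm.qExpansion_mcast, ModularForm.qExpansion_pow one_pos one_mem_strictPeriods_SL,
      ModularForm.qExpansion_pow one_pos one_mem_strictPeriods_SL, map_sub, map_pow, map_pow,
      hAmap, hEmap]
  -- reduction of `A^r - EO^p`
  have hpR : ((p : ℕ) : PowerSeries (O ⧸ Ideal.span {(p : O)})) = 0 := by
    have : ((p : ℕ) : PowerSeries (O ⧸ Ideal.span {(p : O)}))
        = PowerSeries.C (φ (p : O)) := by
      rw [map_natCast, map_natCast]
    rw [this, redO_natCast_self, map_zero]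
  set hbar : PowerSeries (O ⧸ Ideal.span {(p : O)}) :=
    PowerSeries.map (Int.castRingHom _) h with hhbar
  have hEOred : PowerSeries.map φ EO = 1 + PowerSeries.X * hbar := by
    rw [hEO, hhbar, map_map_int, map_add, map_one, map_mul, PowerSeries.map_X]
  have hred : PowerSeries.map φ (A ^ r - EO ^ p) = -(PowerSeries.X ^ p * hbar ^ p) := by
    rw [map_sub, map_pow, map_pow, hAred, one_pow, hEOred]
    obtain ⟨s, hs⟩ := exists_add_pow_prime_eq hp.out (1 : PowerSeries (O ⧸ Ideal.span {(p : O)}))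
      (PowerSeries.X * hbar)
    rw [hs, hpR, mul_pow]
    ring
  have hcoeff : ∀ m, φ (PowerSeries.coeff m (A ^ r - EO ^ p))
      = PowerSeries.coeff m (-(PowerSeries.X ^ p * hbar ^ p)) := by
    intro m
    rw [← hred, PowerSeries.coeff_map]
  have hΦcoeff : ∀ m, (qExpansion 1 Φ).coeff m
      = ((PowerSeries.coeff m (A ^ r - EO ^ p) : O) : ℂ) := by
    intro m
    rw [hΦq, PowerSeries.coeff_map]
    rfl
  -- coefficients below `p` lie in `p O`
  have hlow : ∀ m < p, ∃ y ∈ O, (qExpansion 1 Φ).coeff m = (p : ℂ) * y := by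
    intro m hm
    rw [hΦcoeff, ← redO_eq_zero_iff, hcoeff, map_neg, PowerSeries.coeff_X_pow_mul',
      if_neg (by omega), neg_zero]
  -- the `p`-th coefficient does not
  have hp' : ¬ ∃ y ∈ O, (qExpansion 1 Φ).coeff p = (p : ℂ) * y := by
    rw [hΦcoeff, ← redO_eq_zero_iff, hcoeff, map_neg, PowerSeries.coeff_X_pow_mul',
      if_pos le_rfl, Nat.sub_self, neg_eq_zero, PowerSeries.coeff_zero_eq_constantCoeff,
      map_pow]
    intro h0
    have h1 : PowerSeries.constantCoeff hbar
        = φ ((PowerSeries.constantCoeff h : ℤ) : O) := by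
      rw [hhbar, ← PowerSeries.coeff_zero_eq_constantCoeff_apply, PowerSeries.coeff_map,
        PowerSeries.coeff_zero_eq_constantCoeff_apply]
      simp
    rw [h1, ← map_pow, redO_eq_zero_iff] at h0
    obtain ⟨y, hy, h2⟩ := h0
    have h3 : (((PowerSeries.constantCoeff h) ^ p : ℤ) : ℂ) = (p : ℂ) * y := by
      rw [← h2]; push_cast; rfl
    have h4 := int_dvd_of_eq_mul p hy h3
    exact hc ((Nat.prime_iff_prime_int.mp hp.out).dvd_of_dvd_pow h4)
  have := Fermat.Agent.S16.SturmMod32.le_of_coeff_notMem_mul_subring O (p : ℂ) Φ hlow hp'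
  omega

/-- `E₄ = 1 + X * h₄` with `h₄ = 240 ∑ σ₃(n+1) X^n`. -/
noncomputable def h4 : PowerSeries ℤ :=
  PowerSeries.mk fun n => 240 * (ArithmeticFunction.sigma 3 (n + 1) : ℤ)

/-- `E₆ = 1 + X * h₆` with `h₆ = -504 ∑ σ₅(n+1) X^n`. -/
noncomputable def h6 : PowerSeries ℤ :=
  PowerSeries.mk fun n => -504 * (ArithmeticFunction.sigma 5 (n + 1) : ℤ)

theorem qExpansion_E4_eq :
    qExpansion 1 E₄ = PowerSeries.map (Int.castRingHom ℂ) (1 + PowerSeries.X * h4) := by
  ext m
  rw [E_qExpansion_coeff (by norm_num) ⟨2, rfl⟩ m, PowerSeries.coeff_map]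
  have hb : bernoulli 4 = -1 / 30 := by decide +kernel
  rcases m with _ | n
  · simp
  · have h1 : PowerSeries.coeff (n + 1) (1 + PowerSeries.X * h4)
        = 240 * (ArithmeticFunction.sigma 3 (n + 1) : ℤ) := by
      rw [map_add, PowerSeries.coeff_one, if_neg (Nat.succ_ne_zero n),
        PowerSeries.coeff_succ_X_mul, h4, PowerSeries.coeff_mk, zero_add]
    rw [if_neg (Nat.succ_ne_zero n), h1, hb, eq_intCast]
    push_cast
    ring

theorem qExpansion_E6_eq :
    qExpansion 1 E₆ = PowerSeries.map (Int.castRingHom ℂ) (1 + PowerSeries.X * h6) := by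
  ext m
  rw [E_qExpansion_coeff (by norm_num) ⟨3, rfl⟩ m, PowerSeries.coeff_map]
  have hb : bernoulli 6 = 1 / 42 := by decide +kernel
  rcases m with _ | n
  · simp
  · have h1 : PowerSeries.coeff (n + 1) (1 + PowerSeries.X * h6)
        = -504 * (ArithmeticFunction.sigma 5 (n + 1) : ℤ) := by
      rw [map_add, PowerSeries.coeff_one, if_neg (Nat.succ_ne_zero n),
        PowerSeries.coeff_succ_X_mul, h6, PowerSeries.coeff_mk, zero_add]
    rw [if_neg (Nat.succ_ne_zero n), h1, hb, eq_intCast]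
    push_cast
    ring

theorem constantCoeff_h4 : PowerSeries.constantCoeff h4 = 240 := by
  rw [← PowerSeries.coeff_zero_eq_constantCoeff_apply, h4, PowerSeries.coeff_mk]
  simp

theorem constantCoeff_h6 : PowerSeries.constantCoeff h6 = -504 := by
  rw [← PowerSeries.coeff_zero_eq_constantCoeff_apply, h6, PowerSeries.coeff_mk]
  simp

theorem not_dvd_240 (hp7 : 7 ≤ p) : ¬ (p : ℤ) ∣ 240 := by
  intro h
  have h' : p ∣ 240 := by exact_mod_cast h
  have e : (240 : ℕ) = 2 ^ 4 * 3 * 5 := by norm_num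
  rw [e] at h'
  rcases (Nat.Prime.dvd_mul hp.out).mp h' with h1 | h1
  · rcases (Nat.Prime.dvd_mul hp.out).mp h1 with h2 | h2
    · have := (Nat.prime_dvd_prime_iff_eq hp.out Nat.prime_two).mp (hp.out.dvd_of_dvd_pow h2)
      omega
    · have := (Nat.prime_dvd_prime_iff_eq hp.out Nat.prime_three).mp h2
      omega
  · have := (Nat.prime_dvd_prime_iff_eq hp.out Nat.prime_five).mp h1
    omega

/-- **Core.** For a prime `p ≥ 5` there is no level-one modular form of weight `2p` whose
`q`-expansion has coefficients in `O` (the `p`-integral algebraic numbers) and is `≡ 1 mod p O`. -/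
theorem no_levelOne_one_mod_p (hp5 : 5 ≤ p) {w : ℤ} (hw : w = 2 * (p : ℤ))
    (F : ModularForm 𝒮ℒ w)
    (hF0 : ∃ y ∈ ringO p, (qExpansion 1 F).coeff 0 - 1 = (p : ℂ) * y)
    (hFn : ∀ n : ℕ, 1 ≤ n → ∃ y ∈ ringO p, (qExpansion 1 F).coeff n = (p : ℂ) * y) : False := by
  by_cases hp7 : 7 ≤ p
  · refine core_aux p 2 F E₄ (by rw [hw]; push_cast; ring) ?_ h4 qExpansion_E4_eq ?_ hF0 hFn
    · have : ((p : ℤ) * 4).toNat = p * 4 := by
        have : ((p : ℤ) * 4) = ((p * 4 : ℕ) : ℤ) := by push_cast; ring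
        rw [this, Int.toNat_natCast]
      rw [this]; omega
    · rw [constantCoeff_h4]; exact not_dvd_240 p hp7
  · have hp5' : p = 5 := by
      have h6 : p ≠ 6 := by
        intro h; have := hp.out; rw [h] at this; exact absurd this (by norm_num)
      omega
    refine core_aux p 3 F E₆ (by rw [hw]; push_cast; ring) ?_ h6 qExpansion_E6_eq ?_ hF0 hFn
    · have : ((p : ℤ) * 6).toNat = p * 6 := by
        have : ((p : ℤ) * 6) = ((p * 6 : ℕ) : ℤ) := by push_cast; ring
        rw [this, Int.toNat_natCast]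
      rw [this]; omega
    · rw [constantCoeff_h6, hp5']; norm_num

end Core

end Fermat.Agent.S16.UpNorm96
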