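/-
S16, upper bound, case `l = p` (helper96), part 2: `q`-expansion of the elementary symmetric
functions `Conj53.esymmForm H i` of the conjugates of a form `H` on `Γ₀(p)`, from the
`q^(1/p)`-expansions of the conjugates; integral version and reduction modulo an ideal.
-/
import Mathlib
import Fermat.Agent.S16.Conj53.Trace
import Fermat.Agent.S16.Esymm74

set_option autoImplicit false

open UpperHalfPlane ModularForm ModularFormClass CongruenceSubgroup ModularGroup Function
open scoped MatrixGroups ModularForm Manifold

namespace Fermat.Agent.S16.UpNorm96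

open Fermat.Agent.S24.HasQExp Fermat.Agent.S16.Conj53

variable {p : ℕ} [hp : Fact p.Prime] {k : ℤ}

/-! ### `q^(1/p)`-expansions of the conjugates -/

/-- The expansion of `H` itself in the variable `t = q^(1/p)`. -/
noncomputable def seriesNone (H : ModularForm (Gamma0 p) k) : PowerSeries ℂ :=
  PowerSeries.mk fun m => if p ∣ m then (qExpansion 1 H).coeff (m / p) else 0

/-- The expansion of `H ∣ S T^j` in the variable `t = q^(1/p)`. -/
noncomputable def seriesSome (H : ModularForm (Gamma0 p) k) (j : ZMod p) : PowerSeries ℂ :=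
  PowerSeries.mk fun m => bS H m * (zeta p ^ ((j.val : ℕ) : ℤ)) ^ m

/-- The expansions of all conjugates. -/
noncomputable def seriesConj (H : ModularForm (Gamma0 p) k) : Option (ZMod p) → PowerSeries ℂ
  | none => seriesNone H
  | some j => seriesSome H j

theorem psum_seriesNone (H : ModularForm (Gamma0 p) k) (τ : ℍ) :
    PSum (seriesNone H) (qN p τ) (H τ) := by
  have hp0 : p ≠ 0 := hp.out.ne_zero
  have h1 := ModularForm.hasSum_qExpansion (f := H) one_pos
    (CongruenceSubgroup.one_mem_strictPeriods_Gamma0 p) τ
  unfold Fermat.Agent.S24.HasQExp.PSum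
  set F : ℕ → ℂ := fun m => PowerSeries.coeff m (seriesNone H) * qN p τ ^ m with hF
  have hinj : Injective (fun n : ℕ => p * n) := fun a b hab =>
    Nat.eq_of_mul_eq_mul_left (Nat.pos_of_ne_zero hp0) hab
  have h3 : ∀ x ∉ Set.range (fun n : ℕ => p * n), F x = 0 := by
    intro x hx
    have : ¬ p ∣ x := by
      rintro ⟨c, rfl⟩
      exact hx ⟨c, rfl⟩
    simp [hF, seriesNone, this]
  refine (hinj.hasSum_iff h3).mp ?_
  convert h1 using 1
  funext n
  simp only [comp_apply, hF, seriesNone, PowerSeries.coeff_mk]
  rw [if_pos (dvd_mul_right p n), Nat.mul_div_cancel_left n (Nat.pos_of_ne_zero hp0), pow_mul]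
  have : qN p τ ^ p = Periodic.qParam 1 τ := qParam_p_pow_p τ
  rw [this]

theorem psum_seriesSome (H : ModularForm (Gamma0 p) k) (j : ZMod p) (τ : ℍ) :
    PSum (seriesSome H j) (qN p τ) (tr H ((j.val : ℕ) : ℤ) τ) := by
  have h := hasSum_tr H ((j.val : ℕ) : ℤ) τ
  unfold Fermat.Agent.S24.HasQExp.PSum
  convert h using 1
  funext m
  simp [seriesSome, qN]

theorem psum_seriesConj (H : ModularForm (Gamma0 p) k) (a : Option (ZMod p)) (τ : ℍ) :
    PSum (seriesConj H a) (qN p τ) (conj H a τ) := by
  cases a with
  | none => exact psum_seriesNone H τ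
  | some j => exact psum_seriesSome H j τ

/-! ### Transfer to the symmetric functions -/

/-- The formal `i`-th elementary symmetric function of a family of power series indexed by the
conjugates. -/
noncomputable def esymmSeries {R : Type*} [CommRing R] (P : Option (ZMod p) → PowerSeries R)
    (i : ℕ) : PowerSeries R :=
  ∑ s ∈ Finset.powersetCard i (Finset.univ : Finset (Option (ZMod p))), ∏ a ∈ s, P a

theorem map_esymmSeries {R S : Type*} [CommRing R] [CommRing S] (ψ : R →+* S)
    (P : Option (ZMod p) → PowerSeries R) (i : ℕ) :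
    PowerSeries.map ψ (esymmSeries P i) = esymmSeries (fun a => PowerSeries.map ψ (P a)) i := by
  simp only [esymmSeries, map_sum, map_prod]

theorem psum_esymmForm (H : ModularForm (Gamma0 p) k) (P : Option (ZMod p) → PowerSeries ℂ)
    (hP : ∀ a τ, PSum (P a) (qN p τ) (conj H a τ)) (i : ℕ) (τ : ℍ) :
    PSum (esymmSeries P i) (qN p τ) (Conj53.esymmForm H i τ) := by
  rw [Conj53.esymmForm_apply]
  unfold esymmConj esymmFun esymmSeries
  rw [Finset.sum_apply]
  refine Fermat.Agent.S16.Esymm74.PSum.finset_sum _ fun s _ => ?_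
  rw [Finset.prod_apply]
  exact Fermat.Agent.S16.Esymm74.PSum.finset_prod _ fun a _ => hP a τ

/-- The `q`-expansion of `esymmForm H i` from `q^(1/p)`-expansions of the conjugates. -/
theorem qExpansion_esymmForm_coeff (H : ModularForm (Gamma0 p) k)
    (P : Option (ZMod p) → PowerSeries ℂ)
    (hP : ∀ a τ, PSum (P a) (qN p τ) (conj H a τ)) (i n : ℕ) :
    (qExpansion 1 (Conj53.esymmForm H i)).coeff n = PowerSeries.coeff (p * n) (esymmSeries P i) := by
  have hp0 : 0 < p := hp.out.pos
  have hN' : (0 : ℝ) < p := by exact_mod_cast hp0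
  have h1 := ModularFormClass.qExpansion_coeff_unique (f := Conj53.esymmForm H i)
    (c := fun m => PowerSeries.coeff m (esymmSeries P i))
    hN' (Fermat.Agent.S16.Esymm74.natCast_mem_strictPeriods_SL p)
    (fun τ => by
      have := psum_esymmForm H P hP i τ
      simpa [Fermat.Agent.S24.HasQExp.PSum, qN, smul_eq_mul] using this) (p * n)
  rw [h1]
  have h2 := UpperHalfPlane.qExpansion_coeff_nat_mul (h := 1) one_pos
    (F := Conj53.esymmForm H i)
    (SlashInvariantFormClass.periodic_comp_ofComplex (Conj53.esymmForm H i)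
      one_mem_strictPeriods_SL)
    (ModularFormClass.holo (Conj53.esymmForm H i))
    (ModularFormClass.bdd_at_infty (Conj53.esymmForm H i)) hp0 (p * n)
  rw [mul_one] at h2
  rw [h2, if_pos (dvd_mul_right p n), Nat.mul_div_cancel_left n hp0]

/-- Integral version: if the conjugates have `q^(1/p)`-expansions over a subring `O`, the
`q`-expansion coefficients of `esymmForm H i` are the images of coefficients of the formal
symmetric function over `O`. -/
theorem qExpansion_esymmForm_coeff_subring (H : ModularForm (Gamma0 p) k) (O : Subring ℂ)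
    (P' : Option (ZMod p) → PowerSeries O)
    (hP : ∀ a τ, PSum (PowerSeries.map O.subtype (P' a)) (qN p τ) (conj H a τ)) (i n : ℕ) :
    (qExpansion 1 (Conj53.esymmForm H i)).coeff n
      = ((PowerSeries.coeff (p * n) (esymmSeries P' i) : O) : ℂ) := by
  rw [qExpansion_esymmForm_coeff H (fun a => PowerSeries.map O.subtype (P' a)) hP i n,
    ← map_esymmSeries, PowerSeries.coeff_map]
  rfl

/-! ### The symmetric function `e_p` of `0, 1, …, 1` -/

theorem esymmSeries_zero_one {R : Type*} [CommRing R] (P : Option (ZMod p) → PowerSeries R)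
    (h0 : P none = 0) (h1 : ∀ j, P (some j) = 1) : esymmSeries P p = 1 := by
  classical
  unfold esymmSeries
  have hcard : (Finset.univ : Finset (Option (ZMod p))).card = p + 1 := by
    rw [Finset.card_univ, Fintype.card_option, ZMod.card]
  set s₀ : Finset (Option (ZMod p)) := Finset.univ.erase none with hs₀
  have hs₀card : s₀.card = p := by
    rw [hs₀, Finset.card_erase_of_mem (Finset.mem_univ _), hcard]; rfl
  rw [Finset.sum_eq_single s₀]
  · apply Finset.prod_eq_one
    intro a ha
    rw [hs₀, Finset.mem_erase] at ha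
    cases a with
    | none => exact absurd rfl ha.1
    | some j => exact h1 j
  · intro s hs hne
    rw [Finset.mem_powersetCard] at hs
    have hmem : none ∈ s := by
      by_contra hnot
      apply hne
      apply Finset.eq_of_subset_of_card_le
      · intro a ha
        rw [hs₀, Finset.mem_erase]
        exact ⟨fun h => hnot (h ▸ ha), Finset.mem_univ _⟩
      · rw [hs₀card, hs.2]
    exact Finset.prod_eq_zero hmem h0
  · intro h
    exact absurd (Finset.mem_powersetCard.mpr ⟨Finset.subset_univ _, hs₀card⟩) h

end Fermat.Agent.S16.UpNorm96
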