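/-
S16, upper bound, case `l = p` (helper96), part 3: `UIface39.UpStmt` from the weight-two Fricke
identity (C4) of CONJ and `UIface39.EisStmt`.

Let `G ∈ M₂(Γ₀(p))` with `a₀(G) = 1`, `a_k(G) ∈ p ℤ_(p)` (`k ≥ 1`).  The conjugates of
`H = (-p) G` are `-p G ∈ p O⟦t⟧` and `u_j = ∑ a_{pn}(G) ζ^{jn} t^n ∈ 1 + p O⟦t⟧` (`t = q^(1/p)`,
`O` the `p`-integral algebraic numbers), so `F = e_p` of the conjugates is a level-one form of
weight `2p` with `F ≡ 1 mod p O`, which is impossible by `no_levelOne_one_mod_p`.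
-/
import Mathlib
import Fermat.Agent.S16.UpNorm96.Core
import Fermat.Agent.S16.UpNorm96.Norm
import Fermat.Agent.S16.UAsm39

set_option autoImplicit false

open UpperHalfPlane ModularForm ModularFormClass CongruenceSubgroup ModularGroup Function
open scoped MatrixGroups ModularForm Manifold

namespace Fermat.Agent.S16.UpNorm96

open Fermat.Agent.S24.HasQExp Fermat.Agent.S16.Conj53 Fermat.Agent.S16.UIface39

/-- (C4) of CONJ, the weight-two Fricke identity, in `Conj53` shape: the `q^(1/p)`-expansion of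
`G ∣ S` is `-(1/p) ∑ a_{pn}(G) q^(n/p)`. -/
def FrickeW2 (p : ℕ) : Prop :=
  ∀ (G : ModularForm (Gamma0 p) 2) (n : ℕ),
    bS G n = -((qExpansion 1 G).coeff (p * n)) / (p : ℂ)

variable {p : ℕ} [hp : Fact p.Prime]

theorem zeta_mem_ringO : zeta p ∈ ringO p :=
  mem_ringO_of_isIntegral p
    ((zeta_isPrimitiveRoot (p := p)).isIntegral hp.out.pos)

/-- `x ∈ p ℤ_(p)` implies `x = p y` with `y ∈ O`. -/
theorem exists_of_inPow {x : ℂ} (h : InPow p 1 x) : ∃ y ∈ ringO p, x = (p : ℂ) * y := by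
  obtain ⟨m, d, hd, hx⟩ := h
  have hd0 : (d : ℂ) ≠ 0 := by
    intro h0
    have : d = 0 := by exact_mod_cast h0
    exact hd (this ▸ dvd_zero p)
  refine ⟨(m : ℂ) / (d : ℂ), mem_ringO_of_mul_eq p hd (m := m) (by field_simp), ?_⟩
  rw [pow_one] at hx
  field_simp
  rw [hx]

/-- **`l = p`.** No weight-two form on `Γ₀(p)` is `≡ 1 mod p`. -/
theorem noCong_self (hp5 : 5 ≤ p) (hW : FrickeW2 p) : NoCong p p 1 := by
  classical
  intro G hG0 hGk
  set O := ringO p with hO
  have hp0 : (p : ℂ) ≠ 0 := by exact_mod_cast hp.out.ne_zero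
  -- the coefficients of `G`
  set a : ℕ → ℂ := fun n => (qExpansion 1 G).coeff n with ha
  have ha0 : a 0 = 1 := hG0
  have hak : ∀ n, 1 ≤ n → ∃ y ∈ O, a n = (p : ℂ) * y := fun n hn => exists_of_inPow (hGk n hn)
  have haO : ∀ n, a n ∈ O := by
    intro n
    rcases Nat.eq_zero_or_pos n with rfl | hn
    · rw [ha0]; exact O.one_mem
    · obtain ⟨y, hy, h⟩ := hak n hn
      rw [h]; exact O.mul_mem (natCast_mem O p) hy
  -- the form `H = (-p) G`
  set H : ModularForm (Gamma0 p) 2 := (-(p : ℂ)) • G with hH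
  have hHq : ∀ n, (qExpansion 1 H).coeff n = -(p : ℂ) * a n := by
    intro n
    have := Fermat.Agent.S16.UAsm39.qc_smul (-(p : ℂ)) G n
    simp only [qCoeff] at this
    rw [hH, this]
  have hHb : ∀ m, bS H m = a (p * m) := by
    intro m
    rw [hW H m, hHq]
    field_simp
  -- the expansions over `O`
  have hmem1 : ∀ m, (if p ∣ m then (qExpansion 1 H).coeff (m / p) else 0) ∈ O := by
    intro m
    split_ifs
    · rw [hHq]; exact O.mul_mem (O.neg_mem (natCast_mem O p)) (haO _)
    · exact O.zero_mem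
  have hzpow : ∀ (j : ZMod p) (m : ℕ), (zeta p ^ ((j.val : ℕ) : ℤ)) ^ m ∈ O := by
    intro j m
    rw [zpow_natCast]
    exact O.pow_mem (O.pow_mem zeta_mem_ringO _) _
  have hmem2 : ∀ (j : ZMod p) (m : ℕ), bS H m * (zeta p ^ ((j.val : ℕ) : ℤ)) ^ m ∈ O := by
    intro j m
    rw [hHb]
    exact O.mul_mem (haO _) (hzpow j m)
  set P' : Option (ZMod p) → PowerSeries O := fun x => match x with
    | none => PowerSeries.mk fun m => ⟨_, hmem1 m⟩
    | some j => PowerSeries.mk fun m => ⟨_, hmem2 j m⟩ with hP'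
  have hPmap : ∀ x, PowerSeries.map O.subtype (P' x) = seriesConj H x := by
    intro x
    cases x with
    | none =>
      ext m
      simp [hP', seriesConj, seriesNone]
    | some j =>
      ext m
      simp [hP', seriesConj, seriesSome]
  have hP : ∀ x τ, PSum (PowerSeries.map O.subtype (P' x)) (qN p τ) (conj H x τ) := by
    intro x τ
    rw [hPmap]
    exact psum_seriesConj H x τ
  -- reduction modulo `p`
  set φ := redO p with hφ
  have hred0 : PowerSeries.map φ (P' none) = 0 := by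
    ext m
    rw [PowerSeries.coeff_map, map_zero, redO_eq_zero_iff]
    simp only [hP', PowerSeries.coeff_mk]
    split_ifs
    · exact ⟨-a (m / p), O.neg_mem (haO _), by rw [hHq]; ring⟩
    · exact ⟨0, O.zero_mem, by simp⟩
  have hred1 : ∀ j, PowerSeries.map φ (P' (some j)) = 1 := by
    intro j
    ext m
    rw [PowerSeries.coeff_map, PowerSeries.coeff_one]
    simp only [hP', PowerSeries.coeff_mk]
    split_ifs with hm
    · subst hm
      have : (⟨bS H 0 * (zeta p ^ ((j.val : ℕ) : ℤ)) ^ 0, hmem2 j 0⟩ : O) = 1 := by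
        apply Subtype.ext
        simp [hHb, ha0]
      rw [this, map_one]
    · rw [redO_eq_zero_iff]
      obtain ⟨y, hy, h⟩ := hak (p * m) (Nat.mul_pos hp.out.pos (Nat.pos_of_ne_zero hm))
      refine ⟨y * (zeta p ^ ((j.val : ℕ) : ℤ)) ^ m, O.mul_mem hy (hzpow j m), ?_⟩
      simp only [hHb, h]
      ring
  have hredE : PowerSeries.map φ (esymmSeries P' p) = 1 := by
    rw [map_esymmSeries]
    exact esymmSeries_zero_one _ hred0 hred1
  -- the level-one form `F = e_p`
  have hF : ∀ n, (qExpansion 1 (Conj53.esymmForm H p)).coeff n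
      = ((PowerSeries.coeff (p * n) (esymmSeries P' p) : O) : ℂ) :=
    fun n => qExpansion_esymmForm_coeff_subring H O P' hP p n
  have hcoeffred : ∀ m, φ (PowerSeries.coeff m (esymmSeries P' p))
      = PowerSeries.coeff m (1 : PowerSeries (O ⧸ Ideal.span {(p : O)})) := by
    intro m
    rw [← hredE, PowerSeries.coeff_map]
  refine no_levelOne_one_mod_p p hp5 (w := 2 * ((p : ℕ) : ℤ)) rfl (Conj53.esymmForm H p) ?_ ?_
  · have h1 : φ (PowerSeries.coeff (p * 0) (esymmSeries P' p) - 1) = 0 := by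
      rw [map_sub, hcoeffred, mul_zero, PowerSeries.coeff_one, if_pos rfl, map_one, sub_self]
    obtain ⟨y, hy, h⟩ := (redO_eq_zero_iff p _).mp h1
    refine ⟨y, hy, ?_⟩
    rw [hF 0, ← h]
    push_cast
    rfl
  · intro n hn
    have h1 : φ (PowerSeries.coeff (p * n) (esymmSeries P' p)) = 0 := by
      rw [hcoeffred, PowerSeries.coeff_one, if_neg]
      exact Nat.mul_ne_zero hp.out.ne_zero (by omega)
    obtain ⟨y, hy, h⟩ := (redO_eq_zero_iff p _).mp h1
    exact ⟨y, hy, by rw [hF n, ← h]⟩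

/-- **(U3) `l = p`**: `UIface39.UpStmt` from the Fricke identity (C4) and the Eisenstein series. -/
theorem upStmt_of (hW : ∀ p : ℕ, p.Prime → FrickeW2 p) (hE : EisStmt) : UpStmt := by
  intro p hp hp5 f _hint hf
  have : Fact p.Prime := ⟨hp⟩
  obtain ⟨G, hG0, hGk⟩ := Fermat.Agent.S16.UAsm39.exists_G hE hp f p hf
  refine noCong_self hp5 (hW p hp) G hG0 (fun k hk => ?_)
  obtain ⟨c, hc⟩ := hGk k hk
  -- `a_k (p - 1) = -24 p c`
  refine ⟨-24 * c, p - 1, ?_, ?_⟩
  · intro h
    have h2 := hp.two_le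
    have : p ∣ 1 := by
      have h3 : p ∣ (p - 1) + 1 := by rw [Nat.sub_add_cancel (by omega)]
      exact (Nat.dvd_add_right h).mp h3
    have := Nat.le_of_dvd one_pos this
    omega
  · have h1 : ((p - 1 : ℕ) : ℂ) = (p : ℂ) - 1 := by
      rw [Nat.cast_sub (by have := hp.two_le; omega)]; simp
    rw [h1, hc, pow_one]
    push_cast
    ring

end Fermat.Agent.S16.UpNorm96
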